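import Fermat.Agent.S19.KM.WIP.ModBP

/-!
# S19 / KM route, block [G], node M7 (helper258): assembly of `GRData` for `X₀(N)` and the main
theorem of the KM route for `J₀(N)`.

PARKED under `WIP`: this file has no `sorry` of its own, but it is developed against the blueprint
`WIP/ModBP.lean` (sections M1..M6, `GeomBP` Gd, `MainBP` E1).  To finish: replace the import by the
landed files, delete the sub-namespace `M7`, move to `KM/Geom/Mod/Main.lean`.
-/

set_option autoImplicit false

noncomputable section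

namespace Fermat.Agent.S19.KM.Mod

open ModularCurve AlgebraicCurve Fermat.Agent.S28.Export Fermat.Agent.S18.Descent
  Fermat.Agent.S24.FF Fermat.Agent.Lib.RR Module Submodule IntermediateField

local notation "Qb" => AlgebraicClosure ℚ
local notation "GQ" => (AlgebraicClosure ℚ ≃ₐ[ℚ] AlgebraicClosure ℚ)
local notation "kk" A => IsLocalRing.ResidueField (↥A)

namespace M7

variable (N : ℕ) [NeZero N] {ℓ : ℕ} [Fact ℓ.Prime] (A : ValuationSubring Qb)

/-- change of coefficients of an integral series -/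
theorem coeffMap_ser {R S : Type*} [CommRing R] [CommRing S] (φ : R →+* S)
    (xZ : LaurentSeries ℤ) : coeffMap φ (ser R xZ) = ser S xZ := by
  rw [ser, ser, coeffMap_coeffMap]
  exact coeffMap_congr (RingHom.ext_int _ _) _

/-- separability on the generic side -/
theorem isSeparable_bar (x : modularFunctionFieldBar N) (hx : Transcendental Qb x) :
    Algebra.IsSeparable Qb⟮x⟯ (modularFunctionFieldBar N) := by
  have := isCurve_bar N
  have : FiniteDimensional Qb⟮x⟯ (modularFunctionFieldBar N) := IsFF1.finite x hx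
  have : CharZero Qb⟮x⟯ := charZero_of_injective_algebraMap (algebraMap Qb Qb⟮x⟯).injective
  have : PerfectField Qb⟮x⟯ := PerfectField.ofCharZero
  have : Algebra.IsAlgebraic Qb⟮x⟯ (modularFunctionFieldBar N) := Algebra.IsAlgebraic.of_finite _ _
  exact Algebra.IsAlgebraic.isSeparable_of_perfectField

local notation "K0" => (⊥ : IntermediateField ℚ Qb)

section data

variable {N A}
variable (h : IsGood A (laurentBaseChange Qb (modularFunctionFieldFull N)))
  (h₀ : IsGood (restrict A K0) (laurentBaseChange K0 (modularFunctionFieldFull N)))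
  {xZ : LaurentSeries ℤ} (hxZ : IsBaseCoord N xZ) (x₀ : gaussRing _ _ h₀)
  (hx₀ : (((x₀ : gaussRing _ _ h₀) : laurentBaseChange K0 (modularFunctionFieldFull N)) : LaurentSeries K0) = ser _ xZ)

/-- the coordinate on the generic fibre -/
abbrev xBar : modularFunctionFieldBar N :=
  baseChangeMap (modularFunctionFieldFull N) (algebraMap K0 Qb) ((x₀ : gaussRing _ _ h₀) : laurentBaseChange K0 (modularFunctionFieldFull N))

/-- the coordinate on the special fibre -/
abbrev xRes : resField A (modularFunctionFieldBar N) := resMap A K0 (modularFunctionFieldFull N) (redE h₀ x₀)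

include hx₀ in
theorem coe_xBar : ((xBar h₀ x₀ : modularFunctionFieldBar N) : LaurentSeries Qb) = ser Qb xZ := by
  rw [xBar, coe_baseChangeMap, hx₀, coeffMap_ser]

include hx₀ in
theorem coe_xRes :
    ((xRes h₀ x₀ : resField A (modularFunctionFieldBar N)) : LaurentSeries (kk A)) =
      ser (kk A) xZ := by
  have h1 : redHom h₀ x₀ = ser (kk (restrict A K0)) xZ := by
    apply redHom_eq h₀
    rw [hx₀]
    exact red_ser (restrict A K0) xZ
  rw [xRes, coe_resMap, coe_redE, h1, coeffMap_ser]

include hxZ hx₀ in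
theorem transcendental_xBar : Transcendental Qb (xBar h₀ x₀) :=
  Fermat.Agent.GAL.KLInputs.transcendental_of_coe _ (by rw [coe_xBar h₀ x₀ hx₀]; exact hxZ.tr Qb)

include hxZ hx₀ in
theorem transcendental_xRes : Transcendental (kk A) (xRes (A := A) h₀ x₀) :=
  Fermat.Agent.GAL.KLInputs.transcendental_of_coe _
    (by rw [coe_xRes h₀ x₀ hx₀]; exact hxZ.tr (kk A))

end data

section grdata

variable {N A}

/-- the frames over the big fields -/
theorem exists_frame_bar (hN : ¬ ℓ ∣ N) (hA : A.LiesOverPrime ℓ)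
    [IsCurve Qb (modularFunctionFieldBar N)]
    [IsCurve (kk A) (resField A (modularFunctionFieldBar N))]
    (h : IsGood A (laurentBaseChange Qb (modularFunctionFieldFull N)))
    (h₀ : IsGood (restrict A K0) (laurentBaseChange K0 (modularFunctionFieldFull N)))
    {xZ : LaurentSeries ℤ} (hxZ : IsBaseCoord N xZ) (x₀ : gaussRing _ _ h₀)
    (hx₀ : (((x₀ : gaussRing _ _ h₀) : laurentBaseChange K0 (modularFunctionFieldFull N)) :
      LaurentSeries K0) = ser _ xZ) (i₀ : ℕ)
    (hfr : ∀ i, i₀ ≤ i → ∃ (m : ℕ) (v : Fin m → gaussRing _ _ h₀),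
      span K0 (Set.range fun j => ((v j : gaussRing _ _ h₀) :
        laurentBaseChange K0 (modularFunctionFieldFull N))) =
          LL K0 ((x₀ : gaussRing _ _ h₀) :
            laurentBaseChange K0 (modularFunctionFieldFull N)) i ∧
      LinearIndependent (kk (restrict A K0)) (fun j => redE h₀ (v j)) ∧
      span (kk (restrict A K0)) (Set.range fun j => redE h₀ (v j)) =
        LL (kk (restrict A K0)) (redE h₀ x₀) i) :
    ∀ i, i₀ ≤ i → ∃ (m : ℕ) (v : Fin m → modularFunctionFieldBar N)
      (vb : Fin m → resField A (modularFunctionFieldBar N)),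
      (redData h).IsFrame v vb ∧
        span Qb (Set.range v) = L (i • poleDiv (K := Qb) (xBar h₀ x₀)) ∧
        span (kk A) (Set.range vb) = L (i • poleDiv (K := kk A) (xRes (A := A) h₀ x₀)) ∧
        ∀ g ∈ (arithmeticGalois (L := Qb) (modularFunctionFieldFull N)).range,
          ∀ j, g • v j = v j := by
  have hx := transcendental_xBar h₀ hxZ x₀ hx₀
  have hxk := transcendental_xRes (A := A) h₀ hxZ x₀ hx₀
  have s1 : Algebra.IsSeparable Qb⟮xBar h₀ x₀⟯ (modularFunctionFieldBar N) :=
    isSeparable_bar N _ hx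
  have s2 : Algebra.IsSeparable (kk A)⟮xRes (A := A) h₀ x₀⟯
      (resField A (modularFunctionFieldBar N)) :=
    isSeparable_res N A hN hA hxZ _ (coe_xRes h₀ x₀ hx₀)
  have s3 : Algebra.IsSeparable (kk (restrict A K0)) (kk A) := isSeparable_residue A hA
  have s4 : Algebra.IsSeparable K0 Qb := by
    have : Algebra.IsAlgebraic K0 Qb := inferInstance
    exact Algebra.IsAlgebraic.isSeparable_of_perfectField
  exact exists_frame_of_rat (redData h)
    (baseChangeMap (modularFunctionFieldFull N) (algebraMap K0 Qb))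
    (resMap A K0 (modularFunctionFieldFull N))
    (fun a => baseChangeMap_algebraMap (algebraMap K0 Qb) a)
    (resMap_algebraMap A K0 (modularFunctionFieldFull N))
    (isCompositum_bar K0 (modularFunctionFieldFull N))
    (isLinDisj_bar K0 (modularFunctionFieldFull N))
    (isCompositum_res N A hN hA)
    (isLinDisj_res A K0 (modularFunctionFieldFull N))
    (gaussRing _ _ h₀) (redE h₀)
    (red_compat A K0 (modularFunctionFieldFull N) h h₀)
    x₀ hx hxk
    (arithmeticGalois (L := Qb) (modularFunctionFieldFull N)).range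
    (by
      rintro _ ⟨σ, rfl⟩ f
      exact arith_smul_baseChangeMap (modularFunctionFieldFull N) σ f)
    i₀ hfr

/-- the good reduction data of `X₀(N)` at `A` -/
def grData (hN : ¬ ℓ ∣ N) (hA : A.LiesOverPrime ℓ)
    [IsCurve Qb (modularFunctionFieldBar N)]
    [IsCurve (kk A) (resField A (modularFunctionFieldBar N))]
    (h : IsGood A (laurentBaseChange Qb (modularFunctionFieldFull N)))
    (h₀ : IsGood (restrict A K0) (laurentBaseChange K0 (modularFunctionFieldFull N)))
    {xZ : LaurentSeries ℤ} (hxZ : IsBaseCoord N xZ) (x₀ : gaussRing _ _ h₀)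
    (hx₀ : (((x₀ : gaussRing _ _ h₀) : laurentBaseChange K0 (modularFunctionFieldFull N)) :
      LaurentSeries K0) = ser _ xZ) (i₀ : ℕ)
    (hfr : ∀ i, i₀ ≤ i → ∃ (m : ℕ) (v : Fin m → modularFunctionFieldBar N)
      (vb : Fin m → resField A (modularFunctionFieldBar N)),
      (redData h).IsFrame v vb ∧
        span Qb (Set.range v) = L (i • poleDiv (K := Qb) (xBar h₀ x₀)) ∧
        span (kk A) (Set.range vb) = L (i • poleDiv (K := kk A) (xRes (A := A) h₀ x₀)) ∧
        ∀ g ∈ (arithmeticGalois (L := Qb) (modularFunctionFieldFull N)).range,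
          ∀ j, g • v j = v j) :
    GRData Qb (modularFunctionFieldBar N) (kk A) (resField A (modularFunctionFieldBar N)) where
  toRedData := redData h
  red_surjective := redE_surjective h
  x := xBar h₀ x₀
  xk := xRes h₀ x₀
  x_tr := transcendental_xBar h₀ hxZ x₀ hx₀
  xk_tr := transcendental_xRes h₀ hxZ x₀ hx₀
  red_x := red_compat A K0 (modularFunctionFieldFull N) h h₀ x₀
  deg_eq := dg_poleDiv_eq_of_frames (redData h) (transcendental_xBar h₀ hxZ x₀ hx₀)
    (transcendental_xRes h₀ hxZ x₀ hx₀) i₀ (fun i hi => by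
      obtain ⟨m, v, vb, h1, h2, h3, -⟩ := hfr i hi
      exact ⟨m, v, vb, h1, h2, h3⟩)
  Γ := (arithmeticGalois (L := Qb) (modularFunctionFieldFull N)).range
  Γ_x := by
    rintro _ ⟨σ, rfl⟩
    exact arith_smul_baseChangeMap (modularFunctionFieldFull N) σ _
  i₀ := i₀
  exists_frame := hfr
  finite_bad := by
    have s2 : Algebra.IsSeparable (kk A)⟮xRes (A := A) h₀ x₀⟯
        (resField A (modularFunctionFieldBar N)) :=
      isSeparable_res N A hN hA hxZ _ (coe_xRes h₀ x₀ hx₀)
    exact finite_setOf_not_simple _ (transcendental_xRes h₀ hxZ x₀ hx₀)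
  exists_teich := by
    intro c
    obtain ⟨a, ha, hfix⟩ := exists_teich_mod A hA c
    refine ⟨a, ha, ?_⟩
    rintro _ ⟨σ, rfl⟩ hσ
    exact hfix σ (mem_inertia_of_isIne h hσ)

end grdata

/-- **Main theorem of the KM route for `J₀(N)`**, at the levels with a good base coordinate. -/
theorem exists_SS_modular (hN : ¬ ℓ ∣ N) (h3 : ℓ = 3 → 2 ∣ N) (h2 : ℓ = 2 → 3 ∣ N)
    (hA : A.LiesOverPrime ℓ) {X : Type*} [AddCommGroup X] [Finite X] (ι : X →+ JZero N)
    (hι : Function.Injective ι) (hstab : ∀ (σ : GQ) (P : X), ∃ P' : X, ι P' = σ • ι P) :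
    ∃ SS : Set (X → A),
      (∀ P Q : X, P ≠ Q → ∃ φ ∈ SS, φ P ≠ φ Q) ∧
      (∀ φ ∈ SS, (fun q : X × X => φ (q.1 + q.2)) ∈
        span A {Φ : X × X → A | ∃ a ∈ Algebra.adjoin A SS, ∃ b ∈ Algebra.adjoin A SS,
          Φ = fun q => a q.1 * b q.2}) ∧
      (∀ φ ∈ SS, ∀ σ ∈ A.inertiaSubgroupIn ℚ, ∀ P P' : X, ι P' = σ • ι P →
        (φ P' : Qb) = σ (φ P : Qb)) ∧
      (∀ φ ∈ SS, ∀ σ ∈ A.decompositionSubgroup ℚ, ∃ φ' ∈ SS, ∀ P P' : X, ι P' = σ • ι P →
        (φ' P' : Qb) = σ (φ P : Qb)) := by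
  have h := isGood_baseChange N A hN hA
  have h₀ := isGood_baseChange N (restrict A K0) hN (restrict_liesOverPrime K0 hA)
  have c1 := isCurve_bar N
  have c2 := isCurve_res N A hN hA
  obtain ⟨xZ, hxZ, x₀, hx₀, i₀, hfr⟩ := exists_baseCoord_frames N A hN h3 h2 hA h₀
  let 𝔊 := grData hN hA h h₀ hxZ x₀ hx₀ i₀ (exists_frame_bar hN hA h h₀ hxZ x₀ hx₀ i₀ hfr)
  obtain ⟨SS, H1, H2, H3, H4⟩ := 𝔊.exists_SS ι hι (by
    rintro _ ⟨σ, rfl⟩ P
    exact hstab σ P)
  refine ⟨SS, H1, H2, ?_, ?_⟩
  · intro φ hφ σ hσ P P' hP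
    exact H3 φ hφ (arithmeticGalois (modularFunctionFieldFull N) σ) ⟨σ, rfl⟩
      (isIne_arith h hσ) P P' hP
  · intro φ hφ σ hσ
    exact H4 φ hφ (arithmeticGalois (modularFunctionFieldFull N) σ) ⟨σ, rfl⟩
      (isDec_arith h hσ)

end M7

end Fermat.Agent.S19.KM.Mod
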